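/-
PROJECT R (row 37 by S43), block L0(a) = `S43/JH/Compare/**` (helper2): THE TATE-BETTI COMPARISON, file 1.

The twin of main's `S30/Padic/TateChar` at `Γ₁(M)`: the Tate module of the character group
`X = charGroup1 M` of `Γ₁(M)` (main's `S48/B/Defs/Spec`) is the lattice `ℤ_[p] ⊗ Hom_par(Γ₁(M), ℤ)`,
naturally for the operators which are natural in the coefficient group (double coset operators, diamond
operators).  Instance `G := Γ₁(M)`, `S := parabolic elements` of main's generic `S30/Padic/TateHom`.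

* `charGroup1AddEquiv M` : `Additive (charGroup1 M) ≃+ homS (parabolic) (Additive ℂˣ)`;
* `tateCharGroup1 M p` : `Tp p (Additive (charGroup1 M)) ≃ₗ[ℤ_[p]] parabolicHoms ℤ_[p] (Gamma1 M) ℤ_[p]`,
  `tateCharGroup1_spec` : `ψ_k(g) = ζ_k ^ (φ(g) mod p ^ k)`;
* `tateLattice1 M p` :
  `Tp p (Additive (charGroup1 M)) ≃ₗ[ℤ_[p]] ℤ_[p] ⊗[ℤ] parabolicHoms ℤ (Gamma1 M) ℤ`;
* `CoeffNatural1 t`, `charOp1`, `parOp1`, `tateCharGroup1_map`, `tateLattice1_map`;
* `tau1Char M r hr`, `diaChar1 s` : `τ_r` and the diamond operator of `s ∈ Γ₀(M)` on the character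
  group; `coe_tau1Char` (`r ∤ M` : the double coset operator of `cosetT1`), `coe_diaChar1`
  (`diamondData s`);
* **`tateLattice1_tau1Char`**, **`tateLattice1_diaChar1`** : `tateLattice1` intertwines them with the
  base change of main's `tau1Par ℤ ℤ M r hr`, `diamondPar ℤ ℤ s` on the lattice.
-/
import Mathlib
import Fermat.Agent.S30.Padic.TateHom
import Fermat.Agent.S30.Lattice.BaseChange
import Fermat.Agent.S48.B.Defs.Spec
import Fermat.Agent.S48.B.Hecke.Parabolic1
import Fermat.Agent.S48.B.Hecke.SpecExport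

set_option autoImplicit false

noncomputable section

namespace Fermat.Agent.S43.JH.Compare.Char1

open Fermat.Agent.S30.Padic.TateModule Fermat.Agent.S30.Padic.TateHom
open Fermat.Agent.S30.Lattice.BaseChange
open Fermat.Agent.S30.Hecke.DoubleCoset
open Fermat.Agent.S48.B.Defs.Spec
open Fermat.Agent.S48.B.Hecke.Gamma1Cosets Fermat.Agent.S48.B.Hecke.Diamond1
open Fermat.Agent.S48.B.Hecke.Parabolic1 Fermat.Agent.S48.B.Hecke.SpecExport
open ModularCurve.Period CongruenceSubgroup TensorProduct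
open scoped MatrixGroups

/-! ### the two descriptions of the character group and of the parabolic homomorphisms -/

section Sets

variable (M : ℕ)

/-- `charGroup1 M` is the group of characters trivial on the parabolic elements. -/
theorem charGroup1_eq : charGroup1 M = charS (parSet (Gamma1 M)) := by
  ext ψ
  exact Iff.rfl

/-- the Prelude's parabolic homomorphisms are the homomorphisms vanishing on the parabolic set -/
theorem homSMod_parSet1 (R : Type*) [Semiring R] (A : Type*) [AddCommGroup A] [Module R A] :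
    homSMod (addSet (parSet (Gamma1 M))) R A = parabolicHoms R (Gamma1 M) A := by
  ext φ
  constructor
  · intro h γ hγ
    exact h (Additive.ofMul γ) hγ
  · intro h s hs
    exact h (Additive.toMul s) hs

end Sets

/-! ### the Tate module of the character group -/

section Tate

variable (M : ℕ) (p : ℕ) [hp : Fact p.Prime]

/-- the characters of `charGroup1 M`, written additively with values in `Additive ℂˣ` -/
def charGroup1AddEquiv :
    Additive ↥(charGroup1 M) ≃+ ↥(homS (addSet (parSet (Gamma1 M))) (Additive ℂˣ)) where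
  toFun ψ := ⟨MonoidHom.toAdditive ((Additive.toMul ψ : ↥(charGroup1 M)) : _ →* ℂˣ),
    fun s hs => congrArg Additive.ofMul ((Additive.toMul ψ).2 (Additive.toMul s) hs)⟩
  invFun φ := Additive.ofMul ⟨MonoidHom.toAdditive.symm φ.1,
    fun γ hγ => congrArg Additive.toMul (φ.2 (Additive.ofMul γ) hγ)⟩
  left_inv _ := rfl
  right_inv _ := rfl
  map_add' _ _ := rfl

@[simp] theorem charGroup1AddEquiv_apply (ψ : Additive ↥(charGroup1 M))
    (h : Additive ↥(Gamma1 M)) :
    (charGroup1AddEquiv M ψ : Additive ↥(Gamma1 M) →+ Additive ℂˣ) h =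
      Additive.ofMul (((Additive.toMul ψ : ↥(charGroup1 M)) : ↥(Gamma1 M) →* ℂˣ)
        (Additive.toMul h)) := rfl

/-- **The Tate module of the character group `X = charGroup1 M` is `Hom_par(Γ₁(M), ℤ_[p])`.** -/
def tateCharGroup1 :
    Tp p (Additive ↥(charGroup1 M)) ≃ₗ[ℤ_[p]] ↥(parabolicHoms ℤ_[p] (Gamma1 M) ℤ_[p]) :=
  (tpCongr (charGroup1AddEquiv M)).trans
    ((tateHomS p (addSet (parSet (Gamma1 M)))).trans
      (LinearEquiv.ofEq _ _ (homSMod_parSet1 M ℤ_[p] ℤ_[p])))

/-- the defining property: `ψ_k(g) = ζ_k ^ (φ g mod p ^ k)` for `φ = tateCharGroup1 x`,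
`ζ_k = exp (2πi / p ^ k)`. -/
theorem tateCharGroup1_spec (x : Tp p (Additive ↥(charGroup1 M))) (g : ↥(Gamma1 M)) (k : ℕ) :
    ((Additive.toMul (x.1 k) : ↥(charGroup1 M)) : ↥(Gamma1 M) →* ℂˣ) g =
      zetaC p k ^
        ((tateCharGroup1 M p x : Additive ↥(Gamma1 M) →+ ℤ_[p]) (Additive.ofMul g)).appr k :=
  tateHomS_spec' p (addSet (parSet (Gamma1 M))) (tpCongr (charGroup1AddEquiv M) x)
    (Additive.ofMul g) k

variable [NeZero M]

/-- **The Tate module of the character group is the lattice `ℤ_[p] ⊗ Hom_par(Γ₁(M), ℤ)`.** -/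
def tateLattice1 :
    Tp p (Additive ↥(charGroup1 M)) ≃ₗ[ℤ_[p]]
      ℤ_[p] ⊗[ℤ] ↥(parabolicHoms ℤ (Gamma1 M) ℤ) :=
  (tateCharGroup1 M p).trans (baseChangeEquiv (Gamma1 M) ℤ_[p]).symm

theorem baseChangeEquiv_tateLattice1 (x : Tp p (Additive ↥(charGroup1 M))) :
    baseChangeEquiv (Gamma1 M) ℤ_[p] (tateLattice1 M p x) = tateCharGroup1 M p x :=
  LinearEquiv.apply_symm_apply _ _

end Tate

/-! ### operators natural in the coefficient group -/

section Natural

variable {M : ℕ}

/-- A family of operators `t A` on `Hom(Γ₁(M), A)`, one for each coefficient group `A`, which is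
natural in `A` and preserves the parabolic homomorphisms.  Examples: the double coset operators
`CosetData.heckeHom` over `iota1 M`, the diamond operators `diamondHom s`. -/
structure CoeffNatural1 (t : ∀ (A : Type) [AddCommGroup A],
    (Additive ↥(Gamma1 M) →+ A) →+ (Additive ↥(Gamma1 M) →+ A)) : Prop where
  comp : ∀ {A B : Type} [AddCommGroup A] [AddCommGroup B] (f : A →+ B)
    (φ : Additive ↥(Gamma1 M) →+ A), f.comp (t A φ) = t B (f.comp φ)
  par : ∀ {A : Type} [AddCommGroup A] (φ : Additive ↥(Gamma1 M) →+ A),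
    IsParabolicHom (Gamma1 M) φ → IsParabolicHom (Gamma1 M) (t A φ)

variable {t : ∀ (A : Type) [AddCommGroup A],
    (Additive ↥(Gamma1 M) →+ A) →+ (Additive ↥(Gamma1 M) →+ A)}

theorem CoeffNatural1.mem_homS (ht : CoeffNatural1 t) (φ : Additive ↥(Gamma1 M) →+ Additive ℂˣ)
    (hφ : φ ∈ homS (addSet (parSet (Gamma1 M))) (Additive ℂˣ)) :
    t (Additive ℂˣ) φ ∈ homS (addSet (parSet (Gamma1 M))) (Additive ℂˣ) := by
  have h1 : IsParabolicHom (Gamma1 M) φ := fun γ hγ => hφ (Additive.ofMul γ) hγ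
  intro s hs
  exact ht.par φ h1 (Additive.toMul s) hs

theorem CoeffNatural1.smul (ht : CoeffNatural1 t) {R : Type} [Semiring R] {A : Type}
    [AddCommGroup A] [Module R A] (c : R) (φ : Additive ↥(Gamma1 M) →+ A) :
    t A (c • φ) = c • t A φ :=
  (ht.comp (DistribSMul.toAddMonoidHom A c) φ).symm

/-- the operator on the characters of `charGroup1 M`, written additively -/
def charOp1 (ht : CoeffNatural1 t) : Additive ↥(charGroup1 M) →+ Additive ↥(charGroup1 M) :=
  ((charGroup1AddEquiv M).symm.toAddMonoidHom.comp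
    (restrictHomS (addSet (parSet (Gamma1 M))) (t (Additive ℂˣ)) ht.mem_homS)).comp
    (charGroup1AddEquiv M).toAddMonoidHom

theorem charGroup1AddEquiv_charOp1 (ht : CoeffNatural1 t) (ψ : Additive ↥(charGroup1 M)) :
    (charGroup1AddEquiv M (charOp1 ht ψ) : Additive ↥(Gamma1 M) →+ Additive ℂˣ) =
      t (Additive ℂˣ) (charGroup1AddEquiv M ψ : Additive ↥(Gamma1 M) →+ Additive ℂˣ) := by
  have h : charGroup1AddEquiv M (charOp1 ht ψ) =
      restrictHomS (addSet (parSet (Gamma1 M))) (t (Additive ℂˣ)) ht.mem_homS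
        (charGroup1AddEquiv M ψ) := AddEquiv.apply_symm_apply _ _
  rw [h]
  rfl

/-- the character `charOp1 ht ψ`, evaluated -/
theorem charOp1_apply (ht : CoeffNatural1 t) (ψ : ↥(charGroup1 M)) (g : ↥(Gamma1 M)) :
    ((Additive.toMul (charOp1 ht (Additive.ofMul ψ)) : ↥(charGroup1 M)) :
        ↥(Gamma1 M) →* ℂˣ) g =
      Additive.toMul (t (Additive ℂˣ) (MonoidHom.toAdditive (ψ : ↥(Gamma1 M) →* ℂˣ))
        (Additive.ofMul g)) := by
  have h := congrArg (fun φ : Additive ↥(Gamma1 M) →+ Additive ℂˣ => φ (Additive.ofMul g))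
    (charGroup1AddEquiv_charOp1 ht (Additive.ofMul ψ))
  exact congrArg Additive.toMul h

/-- if the additive operator comes from a multiplicative one `tM` (e.g. `heckeHomMul`), then
`charOp1` is `tM` on the underlying characters -/
theorem charOp1_eq_of_mul (ht : CoeffNatural1 t)
    (tM : (↥(Gamma1 M) →* ℂˣ) → (↥(Gamma1 M) →* ℂˣ))
    (hM : ∀ ψ : ↥(Gamma1 M) →* ℂˣ,
      t (Additive ℂˣ) (MonoidHom.toAdditive ψ) = MonoidHom.toAdditive (tM ψ))
    (ψ : ↥(charGroup1 M)) :
    ((Additive.toMul (charOp1 ht (Additive.ofMul ψ)) : ↥(charGroup1 M)) :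
        ↥(Gamma1 M) →* ℂˣ) = tM ψ := by
  refine MonoidHom.ext fun g => ?_
  rw [charOp1_apply, hM]
  rfl

/-- the operator on the parabolic homomorphisms with values in an `R`-module `A` -/
def parOp1 (R : Type) [Semiring R] (A : Type) [AddCommGroup A] [Module R A]
    (ht : CoeffNatural1 t) : Module.End R ↥(parabolicHoms R (Gamma1 M) A) where
  toFun φ := ⟨t A φ.1, ht.par φ.1 φ.2⟩
  map_add' φ ψ := Subtype.ext (map_add (t A) φ.1 ψ.1)
  map_smul' c φ := Subtype.ext (ht.smul c φ.1)

@[simp] theorem coe_parOp1 (R : Type) [Semiring R] (A : Type) [AddCommGroup A] [Module R A]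
    (ht : CoeffNatural1 t) (φ : ↥(parabolicHoms R (Gamma1 M) A)) :
    (parOp1 R A ht φ : Additive ↥(Gamma1 M) →+ A) = t A φ := rfl

variable (p : ℕ) [hp : Fact p.Prime]

/-- **naturality of `tateCharGroup1`** -/
theorem tateCharGroup1_map (ht : CoeffNatural1 t) (x : Tp p (Additive ↥(charGroup1 M))) :
    tateCharGroup1 M p (Tp.map (charOp1 ht) x) =
      parOp1 ℤ_[p] ℤ_[p] ht (tateCharGroup1 M p x) := by
  have hZ : ∀ ψ ∈ homSMod (addSet (parSet (Gamma1 M))) ℤ_[p] ℤ_[p],
      t ℤ_[p] ψ ∈ homSMod (addSet (parSet (Gamma1 M))) ℤ_[p] ℤ_[p] := by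
    intro ψ hψ
    rw [homSMod_parSet1] at hψ ⊢
    exact ht.par ψ hψ
  have h := tateHomS_map' p (addSet (parSet (Gamma1 M))) (t (Additive ℂˣ)) (t ℤ_[p]) ht.mem_homS hZ
    (fun k ψ => ht.comp (redUnits p k) ψ) (tpCongr (charGroup1AddEquiv M) x)
  apply Subtype.ext
  have h' := congrArg (fun ψ : ↥(homSMod (addSet (parSet (Gamma1 M))) ℤ_[p] ℤ_[p]) =>
    (ψ : Additive ↥(Gamma1 M) →+ ℤ_[p])) h
  refine Eq.trans ?_ h'
  show ((tateHomS p (addSet (parSet (Gamma1 M))))
    (tpCongr (charGroup1AddEquiv M) (Tp.map (charOp1 ht) x)) : Additive ↥(Gamma1 M) →+ ℤ_[p]) = _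
  congr 2

variable [NeZero M]

/-- **naturality of `tateLattice1`**: the operator on the character group corresponds to the base
change of the operator on the integral lattice `Hom_par(Γ₁(M), ℤ)`. -/
theorem tateLattice1_map (ht : CoeffNatural1 t) (x : Tp p (Additive ↥(charGroup1 M))) :
    tateLattice1 M p (Tp.map (charOp1 ht) x) =
      (parOp1 ℤ ℤ ht).baseChange ℤ_[p] (tateLattice1 M p x) := by
  apply (baseChangeEquiv (Gamma1 M) ℤ_[p]).injective
  rw [baseChangeEquiv_tateLattice1, tateCharGroup1_map,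
    baseChangeEquiv_comm (Gamma1 M) ℤ_[p] (parOp1 ℤ ℤ ht) (parOp1 ℤ_[p] ℤ_[p] ht) ?_,
    baseChangeEquiv_tateLattice1]
  intro φ
  apply Subtype.ext
  exact (ht.comp (Int.castAddHom ℤ_[p]) (φ : Additive ↥(Gamma1 M) →+ ℤ)).symm

end Natural

/-! ### the Hecke and diamond operators -/

section Operators

variable {M : ℕ}

/-- every double coset operator of `Γ₁(M)` in `GL(2, ℝ)` is a `CoeffNatural1` family -/
theorem coeffNatural1_heckeHom {X : Type*} [Fintype X] (D : CosetData (iota1 M) X) :
    CoeffNatural1 (fun (A : Type) (_ : AddCommGroup A) =>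
      (D.heckeHom : (Additive ↥(Gamma1 M) →+ A) →+ (Additive ↥(Gamma1 M) →+ A))) where
  comp f φ := D.comp_heckeHom f φ
  par _ hφ := heckeHom_isParabolicHom1 D hφ

/-- the family `A ↦ tau1All M r hr` on `Hom(Γ₁(M), A)` -/
def tau1Family (M r : ℕ) (hr : r.Prime) : ∀ (A : Type) [AddCommGroup A],
    (Additive ↥(Gamma1 M) →+ A) →+ (Additive ↥(Gamma1 M) →+ A) :=
  fun _ _ => tau1All M r hr

/-- **the standard Hecke operators `τ_r = tau1All M r hr` (all primes `r`) form a `CoeffNatural1`
family** -/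
theorem coeffNatural1_tau1Family (M r : ℕ) (hr : r.Prime) : CoeffNatural1 (tau1Family M r hr) where
  comp f φ := comp_tau1All f r hr φ
  par _ hφ := tau1All_isParabolicHom hr hφ

/-- the restriction of the family to the parabolic homomorphisms is `tau1Par` -/
theorem parOp1_tau1Family (R : Type) [Semiring R] (A : Type) [AddCommGroup A] [Module R A]
    (M r : ℕ) (hr : r.Prime) :
    parOp1 R A (coeffNatural1_tau1Family M r hr) = tau1Par R A M r hr := by
  refine LinearMap.ext fun φ => Subtype.ext ?_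
  rw [coe_tau1Par]
  rfl

/-- the family `A ↦ diamondHom s` on `Hom(Γ₁(M), A)` -/
def diaFamily (s : Gamma0 M) : ∀ (A : Type) [AddCommGroup A],
    (Additive ↥(Gamma1 M) →+ A) →+ (Additive ↥(Gamma1 M) →+ A) :=
  fun _ _ => diamondHom s

/-- **the diamond operators form a `CoeffNatural1` family** -/
theorem coeffNatural1_diaFamily (s : Gamma0 M) : CoeffNatural1 (diaFamily s) where
  comp f φ := comp_diamondHom f s φ
  par _ hφ := diamondHom_isParabolicHom s hφ

/-- the restriction of the family to the parabolic homomorphisms is `diamondPar` -/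
theorem parOp1_diaFamily (R : Type) [Semiring R] (A : Type) [AddCommGroup A] [Module R A]
    (s : Gamma0 M) :
    parOp1 R A (coeffNatural1_diaFamily s) = diamondPar R A s :=
  LinearMap.ext fun _ => Subtype.ext rfl

/-- **`τ_r` on the character group `charGroup1 M`**, written additively -/
def tau1Char (M r : ℕ) (hr : r.Prime) :
    Additive ↥(charGroup1 M) →+ Additive ↥(charGroup1 M) :=
  charOp1 (coeffNatural1_tau1Family M r hr)

/-- **the diamond operator of `s ∈ Γ₀(M)` on the character group `charGroup1 M`** -/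
def diaChar1 (s : Gamma0 M) : Additive ↥(charGroup1 M) →+ Additive ↥(charGroup1 M) :=
  charOp1 (coeffNatural1_diaFamily s)

/-- for `r ∤ M` the underlying character of `tau1Char M r hr ψ` is the double coset operator of the
STANDARD coset datum `cosetT1` -/
theorem coe_tau1Char {r : ℕ} (hr : r.Prime) (hrM : ¬ r ∣ M) (ψ : ↥(charGroup1 M)) :
    ((Additive.toMul (tau1Char M r hr (Additive.ofMul ψ)) : ↥(charGroup1 M)) :
        ↥(Gamma1 M) →* ℂˣ) = (cosetT1 hr hrM).heckeHomMul (ψ : ↥(Gamma1 M) →* ℂˣ) :=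
  charOp1_eq_of_mul (coeffNatural1_tau1Family M r hr) (cosetT1 hr hrM).heckeHomMul
    (fun ψ => by
      show tau1All M r hr (MonoidHom.toAdditive ψ) = _
      rw [tau1All_neg hr hrM]
      exact CosetData.heckeHom_toAdditive _ ψ) ψ

/-- the underlying character of `diaChar1 s ψ` is the double coset operator of `diamondData s` -/
theorem coe_diaChar1 (s : Gamma0 M) (ψ : ↥(charGroup1 M)) :
    ((Additive.toMul (diaChar1 s (Additive.ofMul ψ)) : ↥(charGroup1 M)) :
        ↥(Gamma1 M) →* ℂˣ) = (diamondData s).heckeHomMul (ψ : ↥(Gamma1 M) →* ℂˣ) :=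
  charOp1_eq_of_mul (coeffNatural1_diaFamily s) (diamondData s).heckeHomMul
    (fun ψ => by
      show diamondHom s (MonoidHom.toAdditive ψ) = _
      rw [← heckeHom_diamondData]
      exact CosetData.heckeHom_toAdditive _ ψ) ψ

variable (p : ℕ) [hp : Fact p.Prime]

/-- `tateCharGroup1` intertwines `τ_r` on the characters with `τ_r` on `Hom_par(Γ₁(M), ℤ_[p])` -/
theorem tateCharGroup1_tau1Char (M r : ℕ) (hr : r.Prime)
    (x : Tp p (Additive ↥(charGroup1 M))) :
    tateCharGroup1 M p (Tp.map (tau1Char M r hr) x) =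
      tau1Par ℤ_[p] ℤ_[p] M r hr (tateCharGroup1 M p x) := by
  rw [← parOp1_tau1Family]
  exact tateCharGroup1_map p (coeffNatural1_tau1Family M r hr) x

/-- `tateCharGroup1` intertwines the diamond operators -/
theorem tateCharGroup1_diaChar1 (s : Gamma0 M) (x : Tp p (Additive ↥(charGroup1 M))) :
    tateCharGroup1 M p (Tp.map (diaChar1 s) x) =
      diamondPar ℤ_[p] ℤ_[p] s (tateCharGroup1 M p x) := by
  rw [← parOp1_diaFamily]
  exact tateCharGroup1_map p (coeffNatural1_diaFamily s) x

/-- **`tateLattice1` intertwines `τ_r` on the characters with the base change of `τ_r` on the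
integral lattice `Hom_par(Γ₁(M), ℤ)`** -/
theorem tateLattice1_tau1Char (M : ℕ) [NeZero M] (r : ℕ) (hr : r.Prime)
    (x : Tp p (Additive ↥(charGroup1 M))) :
    tateLattice1 M p (Tp.map (tau1Char M r hr) x) =
      (tau1Par ℤ ℤ M r hr).baseChange ℤ_[p] (tateLattice1 M p x) := by
  rw [← parOp1_tau1Family]
  exact tateLattice1_map p (coeffNatural1_tau1Family M r hr) x

/-- **`tateLattice1` intertwines the diamond operators on the characters with the base change of
the diamond operators on the integral lattice** -/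
theorem tateLattice1_diaChar1 [NeZero M] (s : Gamma0 M) (x : Tp p (Additive ↥(charGroup1 M))) :
    tateLattice1 M p (Tp.map (diaChar1 s) x) =
      (diamondPar ℤ ℤ s).baseChange ℤ_[p] (tateLattice1 M p x) := by
  rw [← parOp1_diaFamily]
  exact tateLattice1_map p (coeffNatural1_diaFamily s) x

end Operators

end Fermat.Agent.S43.JH.Compare.Char1
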