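/-
PROJECT R (row 37 by S43), block L0(a) = `S43/JH/Compare/**` (helper2): THE TATE-BETTI COMPARISON, file 2.

The twin of main's `S30/Final/PhiMap` and of the concrete half of `S30/Final/TateCompare` at `Γ₁(M)`:
from `h : PhiDict1 M ι` (main's `S48/B/Defs/Spec`, the relation form of the dictionary) the bundled map

* `phiFun1 h x : Gamma1 M →* ℂˣ` for `x` in the torsion subgroup of `J1 M`, `phiFun1_spec`,
  `phiFun1_eq`, `phiFun1_add`, `phiFun1_zero`, `phiFun1_mem`;
* `phiC1 h : AddCommGroup.torsion (J1 M) →+ Additive (charGroup1 M)`, `phiC1_injective`,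
  `phiC1_surjective` (onto the elements of finite order);
* **`phiC1_hecke`** (from `PhiHecke1 M ι`, `r ∤ M`) : `Φ ∘ T_r = tau1Char M r ∘ Φ`;
  **`phiC1_diamond`** (from `PhiDiamond1 M ι`) : `Φ ∘ ⟨χ(s)⟩ = diaChar1 s ∘ Φ` for `s ∈ Γ₀(M)`.
-/
import Mathlib
import Fermat.Agent.S30.Final.TateCompare
import Fermat.Agent.S48.B.Inst.Dict
import Fermat.Agent.S43.JH.Compare.Char1

set_option autoImplicit false
set_option linter.unusedSectionVars false

noncomputable section

namespace Fermat.Agent.S43.JH.Compare.Phi1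

open CongruenceSubgroup ModularCurve.Period
open Fermat.Agent.S30.Hecke.DoubleCoset
open Fermat.Agent.S30.Final.TateCompare
open Fermat.Agent.S48.B.Defs.Model Fermat.Agent.S48.B.Defs.Spec
open Fermat.Agent.S48.B.Inst.Dict
open Fermat.Agent.S48.B.Hecke.Gamma1Cosets Fermat.Agent.S48.B.Hecke.SpecExport
open Fermat.Agent.S43.JH.Compare.Char1
open scoped MatrixGroups

local notation "Kb" => AlgebraicClosure ℚ

variable {M : ℕ} [NeZero M] {ι : Kb →+* ℂ}

/-! ### the bundled map -/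

section Bundle

variable (h : PhiDict1 M ι)

include h

theorem exists_isPhiOf1 (x : AddCommGroup.torsion (J1 M)) :
    ∃ ψ, IsPhiOf1 M ι (x : J1 M) ψ := by
  obtain ⟨n, hn, hx⟩ := isOfFinAddOrder_iff_nsmul_eq_zero.mp x.2
  exact h.exists_of_torsion _ ⟨n, hn.ne', hx⟩

/-- the character attached to a torsion point -/
def phiFun1 (x : AddCommGroup.torsion (J1 M)) : Gamma1 M →* ℂˣ :=
  Classical.choose (exists_isPhiOf1 h x)

theorem phiFun1_spec (x : AddCommGroup.torsion (J1 M)) :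
    IsPhiOf1 M ι (x : J1 M) (phiFun1 h x) :=
  Classical.choose_spec (exists_isPhiOf1 h x)

theorem phiFun1_eq {x : AddCommGroup.torsion (J1 M)} {ψ : Gamma1 M →* ℂˣ}
    (hx : IsPhiOf1 M ι (x : J1 M) ψ) : phiFun1 h x = ψ :=
  h.unique _ _ _ (phiFun1_spec h x) hx

theorem phiFun1_add (x y : AddCommGroup.torsion (J1 M)) :
    phiFun1 h (x + y) = phiFun1 h x * phiFun1 h y :=
  phiFun1_eq h (h.add _ _ _ _ (phiFun1_spec h x) (phiFun1_spec h y))

theorem phiFun1_zero : phiFun1 h 0 = 1 :=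
  phiFun1_eq h (x := 0) (isPhiOf1_zero h)

theorem phiFun1_mem (x : AddCommGroup.torsion (J1 M)) :
    phiFun1 h x ∈ charGroup1 M ∧ IsOfFinOrder (phiFun1 h x) :=
  h.mem _ _ (phiFun1_spec h x)

/-- **the dictionary `Φ`**, as an additive map on the torsion subgroup of `J₁(M)` with values in the
group `X = charGroup1 M`, written additively -/
def phiC1 : AddCommGroup.torsion (J1 M) →+ Additive ↥(charGroup1 M) where
  toFun x := Additive.ofMul ⟨phiFun1 h x, (phiFun1_mem h x).1⟩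
  map_zero' := by
    apply Additive.toMul.injective
    apply Subtype.ext
    exact phiFun1_zero h
  map_add' x y := by
    apply Additive.toMul.injective
    apply Subtype.ext
    exact phiFun1_add h x y

theorem coe_phiC1 (x : AddCommGroup.torsion (J1 M)) :
    ((Additive.toMul (phiC1 h x) : ↥(charGroup1 M)) : Gamma1 M →* ℂˣ) = phiFun1 h x := rfl

theorem phiC1_injective : Function.Injective (phiC1 h) := by
  intro x y hxy
  have h1 : phiFun1 h x = phiFun1 h y :=
    congrArg (fun z : Additive ↥(charGroup1 M) =>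
      ((Additive.toMul z : ↥(charGroup1 M)) : Gamma1 M →* ℂˣ)) hxy
  have h2 := phiFun1_spec h x
  rw [h1] at h2
  exact Subtype.ext (eq_of_isPhiOf1 h h2 (phiFun1_spec h y))

theorem phiC1_surjective (z : Additive ↥(charGroup1 M)) (hz : IsOfFinAddOrder z) :
    ∃ x, phiC1 h x = z := by
  have h1 : IsOfFinOrder (Additive.toMul z : ↥(charGroup1 M)) := isOfFinAddOrder_ofMul_iff.mp hz
  have h2 : IsOfFinOrder ((Additive.toMul z : ↥(charGroup1 M)) : Gamma1 M →* ℂˣ) :=
    (charGroup1 M).subtype.isOfFinOrder h1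
  obtain ⟨x, hx⟩ := h.surj _ (Additive.toMul z).2 h2
  obtain ⟨n, hn, hnx⟩ := exists_nsmul_eq_zero h hx
  refine ⟨⟨x, isOfFinAddOrder_iff_nsmul_eq_zero.mpr ⟨n, Nat.pos_of_ne_zero hn, hnx⟩⟩, ?_⟩
  apply Additive.toMul.injective
  apply Subtype.ext
  exact phiFun1_eq h hx

/-- `Φ` intertwines an endomorphism `f` of `J₁(M)` and an endomorphism `tC` of the character group
as soon as the relation form of the dictionary does -/
theorem phiC1_of_rel (f : Module.End ℤ (J1 M))
    (tC : Additive ↥(charGroup1 M) →+ Additive ↥(charGroup1 M))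
    (hT : ∀ (x : J1 M) (ψ : ↥(charGroup1 M)),
      IsPhiOf1 M ι x (ψ : Gamma1 M →* ℂˣ) →
      IsPhiOf1 M ι (f x)
        ((Additive.toMul (tC (Additive.ofMul ψ)) : ↥(charGroup1 M)) : Gamma1 M →* ℂˣ))
    (x : AddCommGroup.torsion (J1 M)) :
    phiC1 h (torsionMap f.toAddMonoidHom x) = tC (phiC1 h x) := by
  apply Additive.toMul.injective
  apply Subtype.ext
  exact phiFun1_eq h (x := torsionMap f.toAddMonoidHom x)
    (hT _ ⟨phiFun1 h x, (phiFun1_mem h x).1⟩ (phiFun1_spec h x))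

/-- **`Φ ∘ T_r = τ_r ∘ Φ`** (`r ∤ M`) -/
theorem phiC1_hecke (hhecke : PhiHecke1 M ι) (r : Nat.Primes) (hrM : ¬ (r : ℕ) ∣ M)
    (x : AddCommGroup.torsion (J1 M)) :
    phiC1 h (torsionMap (hecke1Bar M r).toAddMonoidHom x) =
      tau1Char M (r : ℕ) r.2 (phiC1 h x) := by
  refine phiC1_of_rel h (hecke1Bar M r) (tau1Char M (r : ℕ) r.2) (fun y ψ hy => ?_) x
  rw [coe_tau1Char r.2 hrM]
  exact hhecke r hrM (cosetT1 r.2 hrM) (isHeckeData1_cosetT1 r.2 hrM) y _ hy

/-- **`Φ ∘ ⟨χ(s)⟩ = ⟨s⟩ ∘ Φ`** for `s ∈ Γ₀(M)` -/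
theorem phiC1_diamond (hdia : PhiDiamond1 M ι) (s : Gamma0 M)
    (x : AddCommGroup.torsion (J1 M)) :
    phiC1 h (torsionMap (diamond1Bar M (chi M s)).toAddMonoidHom x) =
      diaChar1 s (phiC1 h x) := by
  refine phiC1_of_rel h (diamond1Bar M (chi M s)) (diaChar1 s) (fun y ψ hy => ?_) x
  rw [coe_diaChar1]
  exact hdia (chi M s) (diamondData s) (isDiamondData1_diamondData s) y _ hy

end Bundle

end Fermat.Agent.S43.JH.Compare.Phi1
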