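/-
PROJECT R (row 37 by S43), block L0(a) = `S43/JH/Compare/**` (helper2): THE TATE-BETTI COMPARISON, file 3.

**`compare p h : TpJ1 M p ≃ₗ[ℤ_[p]] ℤ_[p] ⊗[ℤ] Lat M`**, `Lat M = Hom_par(Γ₁(M), ℤ)` (main's
`S48/B/Inst/Lattice.Lat`), from the dictionary `h : PhiDict1 M ι` : the composite of main's generic
`S30/Final/TateCompare.tpEquiv` at `Φ = Phi1.phiC1 h` and of `Char1.tateLattice1 M p`.

* `compare_heckeT` (from `PhiHecke1 M ι`, `r ∤ M`) :
  `compare (heckeT M p r x) = (tau1Par ℤ ℤ M r).baseChange ℤ_[p] (compare x)`;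
* `compare_diaT_chi`, `compare_diaT` (from `PhiDiamond1 M ι`) :
  `compare (diaT M p d x) = (diamondPar ℤ ℤ (sigD d)).baseChange ℤ_[p] (compare x)`;
  the Tate side operators are those of helper11's `JH/Seam` (`heckeT`, `diaT`);
* HYPOTHESIS-FREE (`5 ≤ M`, the range of main's dictionary) : `phiHecke1 M`, `phiDiamond1 M` (main's
  `S48/B/Hecke/Wire` on the theorems of `B1/Main` and the swap identity `S48/B/Inst/Top.swap`),
  **`cmp M p hM`**, **`cmp_heckeT`**, **`cmp_diaT`**, `cmp_diaT_chi`;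
* `finrank_TpJ1` : `rank_{ℤ_[p]} T_p J₁(M) = rank_ℤ Hom_par(Γ₁(M), ℤ)`.
-/
import Mathlib
import Fermat.Agent.S43.JH.Seam
import Fermat.Agent.S43.JH.Restrict
import Fermat.Agent.S43.JH.Compare.Phi1
import Fermat.Agent.S48.B.Inst.Lattice
import Fermat.Agent.S48.B.Inst.Top

set_option autoImplicit false
set_option linter.unusedSectionVars false

noncomputable section

namespace Fermat.Agent.S43.JH.Compare.Main

open CongruenceSubgroup ModularCurve.Period TensorProduct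
open Fermat.Agent.S30.Padic.TateModule
open Fermat.Agent.S30.Final.TateCompare
open Fermat.Agent.S48.B.Defs.Model Fermat.Agent.S48.B.Defs.Spec
open Fermat.Agent.S48.B.Hecke.Gamma1Cosets Fermat.Agent.S48.B.Hecke.Parabolic1
open Fermat.Agent.S48.B.Inst.Lattice
open Fermat.Agent.S43.JH.Seam
open Fermat.Agent.S43.JH.Compare.Char1 Fermat.Agent.S43.JH.Compare.Phi1
open scoped MatrixGroups

local notation "Kb" => AlgebraicClosure ℚ

variable {M : ℕ} [NeZero M] {ι : Kb →+* ℂ} (p : ℕ) [Fact p.Prime]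

/-! ### the comparison from the dictionary -/

/-- **the Tate-Betti comparison** `T_p J₁(M) ≃ ℤ_[p] ⊗ Hom_par(Γ₁(M), ℤ)` -/
def compare (h : PhiDict1 M ι) : TpJ1 M p ≃ₗ[ℤ_[p]] ℤ_[p] ⊗[ℤ] Lat M :=
  (tpEquiv (phiC1 h) (phiC1_injective h) (phiC1_surjective h)).trans (tateLattice1 M p)

theorem compare_apply (h : PhiDict1 M ι) (x : TpJ1 M p) :
    compare p h x =
      tateLattice1 M p (tpEquiv (phiC1 h) (phiC1_injective h) (phiC1_surjective h) x) := rfl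

/-- **Hecke equivariance** (`r ∤ M`) -/
theorem compare_heckeT (h : PhiDict1 M ι) (hhecke : PhiHecke1 M ι) (r : Nat.Primes)
    (hrM : ¬ (r : ℕ) ∣ M) (x : TpJ1 M p) :
    compare p h (heckeT M p r x) =
      (tau1Par ℤ ℤ M (r : ℕ) r.2).baseChange ℤ_[p] (compare p h x) := by
  rw [compare_apply, compare_apply, ← tateLattice1_tau1Char]
  congr 1
  exact tpEquiv_mapEnd (phiC1 h) (phiC1_injective h) (phiC1_surjective h)
    (hecke1Bar M r).toAddMonoidHom (tau1Char M (r : ℕ) r.2) (phiC1_hecke h hhecke r hrM) x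

/-- **diamond equivariance**, for `s ∈ Γ₀(M)` -/
theorem compare_diaT_chi (h : PhiDict1 M ι) (hdia : PhiDiamond1 M ι) (s : Gamma0 M)
    (x : TpJ1 M p) :
    compare p h (diaT M p (chi M s) x) =
      (diamondPar ℤ ℤ s).baseChange ℤ_[p] (compare p h x) := by
  rw [compare_apply, compare_apply, ← tateLattice1_diaChar1]
  congr 1
  exact tpEquiv_mapEnd (phiC1 h) (phiC1_injective h) (phiC1_surjective h)
    (diamond1Bar M (chi M s)).toAddMonoidHom (diaChar1 s) (phiC1_diamond h hdia s) x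

/-- **diamond equivariance**, for `d ∈ (ℤ/M)ˣ` and main's chosen `sigD d ∈ Γ₀(M)` -/
theorem compare_diaT (h : PhiDict1 M ι) (hdia : PhiDiamond1 M ι) (d : (ZMod M)ˣ)
    (x : TpJ1 M p) :
    compare p h (diaT M p d x) =
      (diamondPar ℤ ℤ (sigD d)).baseChange ℤ_[p] (compare p h x) := by
  have h1 := compare_diaT_chi p h hdia (sigD d) x
  rwa [chi_sigD] at h1

/-! ### hypothesis-free, `5 ≤ M` -/

section Free

variable (M)

/-- main's embedding `ℚ̄ → ℂ` -/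
abbrev iotaC : Kb →+* ℂ := Fermat.Agent.S48.B.Inst.Top.iotaC

/-- `PhiDiamond1` is a theorem of main -/
theorem phiDiamond1 : PhiDiamond1 M iotaC :=
  Fermat.Agent.S48.B.Hecke.Wire.phiDiamond1_of_b1 iotaC (Fermat.Agent.S48.B.B1.Main.deg1 M)
    (Fermat.Agent.S48.B.B1.Main.diamondAn M) (Fermat.Agent.S48.B.B1.Main.diamondExists M)

/-- `PhiHecke1` is a theorem of main -/
theorem phiHecke1 : PhiHecke1 M iotaC :=
  Fermat.Agent.S48.B.Hecke.Wire.phiHecke1_of_seams iotaC (Fermat.Agent.S48.B.B1.Main.repLe M)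
    (Fermat.Agent.S48.B.B1.Main.deg1 M) (fun l _ => Fermat.Agent.S48.B.B1.Main.deg1p M l)
    (Fermat.Agent.S48.B.B1.Main.diamondAn M) (Fermat.Agent.S48.B.B1.Main.diamondExists M)
    (Fermat.Agent.S48.B.Inst.Top.swap M)

/-- **THE COMPARISON** `T_p J₁(M) ≃ ℤ_[p] ⊗ Hom_par(Γ₁(M), ℤ)`, `M ≥ 5` -/
def cmp (hM : 5 ≤ M) : TpJ1 M p ≃ₗ[ℤ_[p]] ℤ_[p] ⊗[ℤ] Lat M :=
  compare p (Fermat.Agent.S43.JH.Restrict.phiDict1 M hM)

/-- **`cmp ∘ T_r = (1 ⊗ τ_r) ∘ cmp`** (`r ∤ M`) -/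
theorem cmp_heckeT (hM : 5 ≤ M) (r : Nat.Primes) (hrM : ¬ (r : ℕ) ∣ M) (x : TpJ1 M p) :
    cmp M p hM (heckeT M p r x) =
      (tau1Par ℤ ℤ M (r : ℕ) r.2).baseChange ℤ_[p] (cmp M p hM x) :=
  compare_heckeT p _ (phiHecke1 M) r hrM x

/-- **`cmp ∘ ⟨d⟩ = (1 ⊗ ⟨σ_d⟩) ∘ cmp`** -/
theorem cmp_diaT (hM : 5 ≤ M) (d : (ZMod M)ˣ) (x : TpJ1 M p) :
    cmp M p hM (diaT M p d x) =
      (diamondPar ℤ ℤ (sigD d)).baseChange ℤ_[p] (cmp M p hM x) :=
  compare_diaT p _ (phiDiamond1 M) d x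

theorem cmp_diaT_chi (hM : 5 ≤ M) (s : Gamma0 M) (x : TpJ1 M p) :
    cmp M p hM (diaT M p (chi M s) x) =
      (diamondPar ℤ ℤ s).baseChange ℤ_[p] (cmp M p hM x) :=
  compare_diaT_chi p _ (phiDiamond1 M) s x

/-- the rank of the Tate module is the rank of the Betti lattice -/
theorem finrank_TpJ1 (hM : 5 ≤ M) :
    Module.finrank ℤ_[p] (TpJ1 M p) = Module.finrank ℤ (Lat M) := by
  rw [(cmp M p hM).finrank_eq, Module.finrank_baseChange]

end Free

end Fermat.Agent.S43.JH.Compare.Main
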