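/-
PROJECT R (row 37 by S43), block L0(a) = `S43/JH/Compare/**` (helper2): THE TATE-BETTI COMPARISON, file 4:
COEFFICIENTS IN A `ℤ_[p]`-ALGEBRA `O`.

* abstract: `cancelBC` = Mathlib's `O ⊗[ℤ_[p]] (ℤ_[p] ⊗[ℤ] L) ≃ₗ[O] O ⊗[ℤ] L`, `cancelBC_baseChange`
  (it intertwines `(g.baseChange ℤ_[p]).baseChange O` and `g.baseChange O`); `liftEquiv e`, the
  `O`-form of a comparison `e : T ≃ₗ[ℤ_[p]] ℤ_[p] ⊗[ℤ] L`, `liftEquiv_comm`;
* **`cmpLat M p O hM : O ⊗[ℤ_[p]] TpJ1 M p ≃ₗ[O] O ⊗[ℤ] Lat M`**, `cmpLat_heckeT`, `cmpLat_diaT`;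
* **`cmpO M p O hM : O ⊗[ℤ_[p]] TpJ1 M p ≃ₗ[O] Hom_par(Γ₁(M), O)`** (`O` flat over `ℤ`), **`cmpO_heckeT`**
  (`cmpO ∘ (1 ⊗ T_r) = tau1Par O O M r ∘ cmpO`, `r ∤ M`), **`cmpO_diaT`**
  (`cmpO ∘ (1 ⊗ ⟨d⟩) = diamondPar O O (sigD d) ∘ cmpO`).
-/
import Mathlib
import Fermat.Agent.S43.JH.Compare.Main

set_option autoImplicit false
set_option linter.unusedSectionVars false

noncomputable section

namespace Fermat.Agent.S43.JH.Compare.Coeff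

open CongruenceSubgroup ModularCurve.Period TensorProduct
open Fermat.Agent.S30.Lattice.BaseChange
open Fermat.Agent.S48.B.Hecke.Gamma1Cosets Fermat.Agent.S48.B.Hecke.Parabolic1
open Fermat.Agent.S48.B.Inst.Lattice
open Fermat.Agent.S43.JH.Seam Fermat.Agent.S43.JH.Compare.Main
open scoped MatrixGroups

/-! ### abstract: from `ℤ_[p]` to a `ℤ_[p]`-algebra -/

section Abstract

variable (p : ℕ) [Fact p.Prime] (O : Type*) [CommRing O] [Algebra ℤ_[p] O]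
variable (L : Type*) [AddCommGroup L]

/-- `O ⊗[ℤ_[p]] (ℤ_[p] ⊗[ℤ] L) ≃ O ⊗[ℤ] L` -/
def cancelBC : O ⊗[ℤ_[p]] (ℤ_[p] ⊗[ℤ] L) ≃ₗ[O] O ⊗[ℤ] L :=
  TensorProduct.AlgebraTensorModule.cancelBaseChange ℤ ℤ_[p] O O L

theorem cancelBC_tmul (a : O) (b : ℤ_[p]) (l : L) :
    cancelBC p O L (a ⊗ₜ[ℤ_[p]] (b ⊗ₜ[ℤ] l)) = (b • a) ⊗ₜ[ℤ] l :=
  TensorProduct.AlgebraTensorModule.cancelBaseChange_tmul ℤ ℤ_[p] O a l b

variable {L}

/-- `cancelBC` intertwines the two base changes of an endomorphism of `L` -/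
theorem cancelBC_baseChange (g : Module.End ℤ L) (x : O ⊗[ℤ_[p]] (ℤ_[p] ⊗[ℤ] L)) :
    cancelBC p O L ((g.baseChange ℤ_[p]).baseChange O x) =
      g.baseChange O (cancelBC p O L x) := by
  induction x using TensorProduct.induction_on with
  | zero => rw [map_zero, map_zero, map_zero]
  | add x y hx hy => rw [map_add, map_add, hx, hy, map_add, map_add]
  | tmul a z =>
    rw [LinearMap.baseChange_tmul]
    induction z using TensorProduct.induction_on with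
    | zero => rw [map_zero, tmul_zero, map_zero, map_zero]
    | add z w hz hw => rw [map_add, tmul_add, map_add, hz, hw, tmul_add, map_add, map_add]
    | tmul b l =>
      rw [LinearMap.baseChange_tmul, cancelBC_tmul, cancelBC_tmul, LinearMap.baseChange_tmul]

variable {T : Type*} [AddCommGroup T] [Module ℤ_[p] T]

/-- the `O`-form of a comparison `e : T ≃ ℤ_[p] ⊗ L` -/
def liftEquiv (e : T ≃ₗ[ℤ_[p]] ℤ_[p] ⊗[ℤ] L) : O ⊗[ℤ_[p]] T ≃ₗ[O] O ⊗[ℤ] L :=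
  (LinearEquiv.baseChange ℤ_[p] O T (ℤ_[p] ⊗[ℤ] L) e).trans (cancelBC p O L)

theorem liftEquiv_tmul (e : T ≃ₗ[ℤ_[p]] ℤ_[p] ⊗[ℤ] L) (a : O) (y : T) :
    liftEquiv p O e (a ⊗ₜ[ℤ_[p]] y) = cancelBC p O L (a ⊗ₜ[ℤ_[p]] e y) := by
  unfold liftEquiv
  rw [LinearEquiv.trans_apply, LinearEquiv.baseChange_tmul]

/-- operators which correspond under `e` correspond under `liftEquiv e` -/
theorem liftEquiv_comm (e : T ≃ₗ[ℤ_[p]] ℤ_[p] ⊗[ℤ] L) (f : Module.End ℤ_[p] T)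
    (g : Module.End ℤ L) (hfg : ∀ y, e (f y) = g.baseChange ℤ_[p] (e y))
    (x : O ⊗[ℤ_[p]] T) :
    liftEquiv p O e (f.baseChange O x) = g.baseChange O (liftEquiv p O e x) := by
  induction x using TensorProduct.induction_on with
  | zero => rw [map_zero, map_zero, map_zero]
  | add x y hx hy => rw [map_add, map_add, hx, hy, map_add, map_add]
  | tmul a y =>
    rw [LinearMap.baseChange_tmul, liftEquiv_tmul, liftEquiv_tmul, hfg,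
      ← cancelBC_baseChange, LinearMap.baseChange_tmul]

end Abstract

/-! ### the comparison with coefficients in `O` -/

section Concrete

variable (M : ℕ) [NeZero M] (p : ℕ) [Fact p.Prime] (O : Type*) [CommRing O] [Algebra ℤ_[p] O]

/-- **the comparison** `O ⊗ T_p J₁(M) ≃ O ⊗ Hom_par(Γ₁(M), ℤ)` -/
def cmpLat (hM : 5 ≤ M) : O ⊗[ℤ_[p]] TpJ1 M p ≃ₗ[O] O ⊗[ℤ] Lat M :=
  liftEquiv p O (cmp M p hM)

theorem cmpLat_heckeT (hM : 5 ≤ M) (r : Nat.Primes) (hrM : ¬ (r : ℕ) ∣ M)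
    (x : O ⊗[ℤ_[p]] TpJ1 M p) :
    cmpLat M p O hM ((heckeT M p r).baseChange O x) =
      (tau1Par ℤ ℤ M (r : ℕ) r.2).baseChange O (cmpLat M p O hM x) :=
  liftEquiv_comm p O (cmp M p hM) (heckeT M p r) (tau1Par ℤ ℤ M (r : ℕ) r.2)
    (cmp_heckeT M p hM r hrM) x

theorem cmpLat_diaT (hM : 5 ≤ M) (d : (ZMod M)ˣ) (x : O ⊗[ℤ_[p]] TpJ1 M p) :
    cmpLat M p O hM ((diaT M p d).baseChange O x) =
      (diamondPar ℤ ℤ (sigD d)).baseChange O (cmpLat M p O hM x) :=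
  liftEquiv_comm p O (cmp M p hM) (diaT M p d) (diamondPar ℤ ℤ (sigD d))
    (cmp_diaT M p hM d) x

variable [Module.Flat ℤ O]

/-- **the comparison** `O ⊗ T_p J₁(M) ≃ Hom_par(Γ₁(M), O)` -/
def cmpO (hM : 5 ≤ M) : O ⊗[ℤ_[p]] TpJ1 M p ≃ₗ[O] ↥(parabolicHoms O (Gamma1 M) O) :=
  (cmpLat M p O hM).trans (baseChangeEquiv (Gamma1 M) O)

theorem cmpO_apply (hM : 5 ≤ M) (x : O ⊗[ℤ_[p]] TpJ1 M p) :
    cmpO M p O hM x = baseChangeEquiv (Gamma1 M) O (cmpLat M p O hM x) := rfl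

/-- **`cmpO ∘ (1 ⊗ T_r) = τ_r ∘ cmpO`** (`r ∤ M`) -/
theorem cmpO_heckeT (hM : 5 ≤ M) (r : Nat.Primes) (hrM : ¬ (r : ℕ) ∣ M)
    (x : O ⊗[ℤ_[p]] TpJ1 M p) :
    cmpO M p O hM ((heckeT M p r).baseChange O x) =
      tau1Par O O M (r : ℕ) r.2 (cmpO M p O hM x) := by
  rw [cmpO_apply, cmpO_apply, cmpLat_heckeT M p O hM r hrM, baseChangeEquiv_tau1Par]

/-- **`cmpO ∘ (1 ⊗ ⟨d⟩) = ⟨σ_d⟩ ∘ cmpO`** -/
theorem cmpO_diaT (hM : 5 ≤ M) (d : (ZMod M)ˣ) (x : O ⊗[ℤ_[p]] TpJ1 M p) :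
    cmpO M p O hM ((diaT M p d).baseChange O x) =
      diamondPar O O (sigD d) (cmpO M p O hM x) := by
  rw [cmpO_apply, cmpO_apply, cmpLat_diaT M p O hM d, baseChangeEquiv_diamondPar]

end Concrete

end Fermat.Agent.S43.JH.Compare.Coeff
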